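import Fermat.Agent.S41.RibetAlg85.Local

/-!
# [RIBET-ALG], global form (helper85)

`𝕋` a commutative ring, `𝔪` a prime ideal, `L`, `L'` two `𝕋`-modules with `L' / p L'` FINITE,
`α₁ α₂ : L → L'`, `β₁ β₂ : L' → L`, `T : L → L`, all `𝕋`-linear, with
`β ∘ α = [[c, T],[T, c]]`.  All hypotheses are stated elementwise ("up to some `s ∉ 𝔪`"),
no localisation appears in the statement.
-/

set_option autoImplicit false

namespace Fermat.Agent.S41.RibetAlgGlobal85

open LocalizedModule Fermat.Agent.S41.RibetAlg85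
open scoped Pointwise

variable {𝕋 : Type*} [CommRing 𝕋] (S : Submonoid 𝕋)
variable {M N : Type*} [AddCommGroup M] [Module 𝕋 M] [AddCommGroup N] [Module 𝕋 N]

/-- localisation of a linear map -/
noncomputable def loc (f : M →ₗ[𝕋] N) : LocalizedModule S M →ₗ[𝕋] LocalizedModule S N :=
  IsLocalizedModule.map S (mkLinearMap S M) (mkLinearMap S N) f

lemma loc_mk (f : M →ₗ[𝕋] N) (m : M) (s : S) : loc S f (mk m s) = mk (f m) s :=
  IsLocalizedModule.map_LocalizedModules S f m s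

lemma mk_eq_zero_iff (m : M) (s : S) :
    (mk m s : LocalizedModule S M) = 0 ↔ ∃ u : S, (u : 𝕋) • m = 0 := by
  rw [← zero_mk (S := S) (M := M) 1, mk_eq]
  constructor
  · rintro ⟨u, hu⟩
    refine ⟨u, ?_⟩
    simpa [Submonoid.smul_def] using hu
  · rintro ⟨u, hu⟩
    refine ⟨u, ?_⟩
    simpa [Submonoid.smul_def] using hu

lemma pDvd_mk_iff (p : 𝕋) (m : M) (s : S) :
    PDvd p (mk m s : LocalizedModule S M) ↔ ∃ u : S, PDvd p ((u : 𝕋) • m) := by
  constructor
  · rintro ⟨w, hw⟩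
    induction w using LocalizedModule.induction_on with
    | _ w t =>
      rw [smul'_mk, mk_eq] at hw
      obtain ⟨u, hu⟩ := hw
      refine ⟨u * t, ((u : 𝕋) * (s : 𝕋)) • w, ?_⟩
      simp only [Submonoid.smul_def, Submonoid.coe_mul] at hu ⊢
      rw [mul_smul, hu, smul_smul, smul_smul, smul_smul]
      congr 1
      ring
  · rintro ⟨u, w, hw⟩
    refine ⟨mk w (u * s), ?_⟩
    rw [smul'_mk, ← hw, mk_eq]
    refine ⟨1, ?_⟩
    simp only [Submonoid.smul_def, Submonoid.coe_mul, one_smul]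
    rw [mul_comm, mul_smul]


lemma mk_sub_mk (m m' : M) (s s' : S) :
    (mk m s - mk m' s' : LocalizedModule S M) = mk ((s' : 𝕋) • m - (s : 𝕋) • m') (s * s') := by
  rw [sub_eq_add_neg, ← mk_neg, mk_add_mk, sub_eq_add_neg, smul_neg]
  rfl

lemma mk_eq_of_smul_eq (m m' : M) (s s' : S) (h : (s' : 𝕋) • m = (s : 𝕋) • m') :
    (mk m s : LocalizedModule S M) = mk m' s' := by
  rw [mk_eq]
  exact ⟨1, by simpa [Submonoid.smul_def] using h⟩

/-- `L' → (L'_S)/p` is onto when `L'/p` is finite. -/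
lemma exists_pDvd_mk_sub (p : 𝕋) (hfin : Finite (N ⧸ (p • (⊤ : Submodule 𝕋 N)))) (l : N) (s : S) :
    ∃ l' : N, PDvd p ((mk l s : LocalizedModule S N) - mk l' 1) := by
  classical
  let P : Submodule 𝕋 N := p • (⊤ : Submodule 𝕋 N)
  let φ : ℕ → N ⧸ P := fun k => Submodule.Quotient.mk (((s : 𝕋) ^ k) • l)
  obtain ⟨n, m, hnm, hφ⟩ := Finite.exists_ne_map_eq_of_infinite φ
  -- wlog n < m
  have key : ∀ n m : ℕ, n < m → φ n = φ m →
      ∃ l' : N, PDvd p ((mk l s : LocalizedModule S N) - mk l' 1) := by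
    intro n m hlt hφ
    obtain ⟨d, rfl⟩ : ∃ d, m = n + d + 1 := ⟨m - n - 1, by omega⟩
    refine ⟨((s : 𝕋) ^ d) • l, ?_⟩
    rw [mk_sub_mk, pDvd_mk_iff]
    refine ⟨s ^ n, ?_⟩
    have h1 : ((s : 𝕋) ^ n) • l - ((s : 𝕋) ^ (n + d + 1)) • l ∈ P := by
      rw [← Submodule.Quotient.mk_eq_zero, Submodule.Quotient.mk_sub, sub_eq_zero]
      exact hφ
    rw [← pDvd_iff_mem] at h1
    have h2 : ((s ^ n : S) : 𝕋) • (((1 : S) : 𝕋) • l - (s : 𝕋) • ((s : 𝕋) ^ d) • l)
        = ((s : 𝕋) ^ n) • l - ((s : 𝕋) ^ (n + d + 1)) • l := by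
      simp only [SubmonoidClass.coe_pow, Submonoid.coe_one, one_smul, smul_sub, smul_smul]
      congr 2
      ring
    rw [h2]
    exact h1
  rcases lt_or_gt_of_ne hnm with h | h
  · exact key n m h hφ
  · exact key m n h hφ.symm

section Main

variable {L L' : Type*} [AddCommGroup L] [Module 𝕋 L] [AddCommGroup L'] [Module 𝕋 L']

/-- **[RIBET-ALG], global elementwise form.** -/
theorem exists_mem_ker_forall_smul_ne_zero (𝔪 : Ideal 𝕋) [𝔪.IsPrime]
    (p c : 𝕋) (T : L →ₗ[𝕋] L) (α₁ α₂ : L →ₗ[𝕋] L') (β₁ β₂ : L' →ₗ[𝕋] L)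
    (h11 : ∀ x, β₁ (α₁ x) = c • x) (h12 : ∀ y, β₁ (α₂ y) = T y)
    (h21 : ∀ x, β₂ (α₁ x) = T x) (h22 : ∀ y, β₂ (α₂ y) = c • y)
    (hfin : Finite (L' ⧸ (p • (⊤ : Submodule 𝕋 L'))))
    (hI : ∀ x y : L, PDvd p (α₁ x + α₂ y) → ∃ s ∉ 𝔪, PDvd p (s • x) ∧ PDvd p (s • y))
    (hII : ∀ x y : L, ∃ s ∉ 𝔪, ∃ z : L', β₁ z = s • x ∧ β₂ z = s • y)
    (hIII : ¬ ∀ x : L, ∃ s ∉ 𝔪, ∃ y : L, PDvd p (s • x - (T (T y) - (c * c) • y))) :
    ∃ z : L', β₁ z = 0 ∧ β₂ z = 0 ∧ ∀ s ∉ 𝔪, s • z ≠ 0 := by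
  classical
  set S : Submonoid 𝕋 := 𝔪.primeCompl with hS
  let a : LocalizedModule S L × LocalizedModule S L →ₗ[𝕋] LocalizedModule S L' :=
    (loc S α₁).coprod (loc S α₂)
  let b : LocalizedModule S L' →ₗ[𝕋] LocalizedModule S L × LocalizedModule S L :=
    (loc S β₁).prod (loc S β₂)
  have hba : ∀ x y : LocalizedModule S L,
      b (a (x, y)) = (c • x + loc S T y, loc S T x + c • y) := by
    intro x y
    induction x using LocalizedModule.induction_on with
    | _ m s =>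
    induction y using LocalizedModule.induction_on with
    | _ n t =>
      simp only [a, b, LinearMap.coprod_apply, LinearMap.prod_apply, Function.prod, map_add, loc_mk,
        h11, h12, h21, h22, smul'_mk]
      rfl
  have hart : IsArtinian 𝕋
      (LocalizedModule S L' ⧸ (p • (⊤ : Submodule 𝕋 (LocalizedModule S L')))) := by
    have hle : (p • (⊤ : Submodule 𝕋 L')) ≤
        (p • (⊤ : Submodule 𝕋 (LocalizedModule S L'))).comap (mkLinearMap S L') := by
      intro z hz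
      rw [Submodule.mem_comap, ← pDvd_iff_mem]
      rw [← pDvd_iff_mem] at hz
      exact hz.map p _
    let g := Submodule.mapQ _ _ (mkLinearMap S L') hle
    have hg : Function.Surjective g := by
      intro xbar
      obtain ⟨x, rfl⟩ := Submodule.Quotient.mk_surjective _ xbar
      induction x using LocalizedModule.induction_on with
      | _ l s =>
        obtain ⟨l', hl'⟩ := exists_pDvd_mk_sub S p hfin l s
        refine ⟨Submodule.Quotient.mk l', ?_⟩
        rw [Submodule.mapQ_apply, eq_comm, ← sub_eq_zero, ← Submodule.Quotient.mk_sub,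
          Submodule.Quotient.mk_eq_zero, ← pDvd_iff_mem]
        exact hl'
    have : Finite (LocalizedModule S L' ⧸ (p • (⊤ : Submodule 𝕋 (LocalizedModule S L')))) :=
      Finite.of_surjective g hg
    exact isArtinian_of_finite
  have hI' : ∀ v : LocalizedModule S L × LocalizedModule S L, PDvd p (a v) → PDvd p v := by
    rintro ⟨x, y⟩ hv
    induction x using LocalizedModule.induction_on with
    | _ m s =>
    induction y using LocalizedModule.induction_on with
    | _ n t =>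
      simp only [a, LinearMap.coprod_apply, loc_mk, mk_add_mk] at hv
      rw [pDvd_mk_iff] at hv
      obtain ⟨u, hu⟩ := hv
      have hu' : PDvd p (α₁ (((u : 𝕋) * (t : 𝕋)) • m) + α₂ (((u : 𝕋) * (s : 𝕋)) • n)) := by
        have : (u : 𝕋) • ((t : S) • α₁ m + (s : S) • α₂ n)
            = α₁ (((u : 𝕋) * (t : 𝕋)) • m) + α₂ (((u : 𝕋) * (s : 𝕋)) • n) := by
          simp only [Submonoid.smul_def, smul_add, smul_smul, map_smul]
        rw [← this]; exact hu
      obtain ⟨r, hr, h1, h2⟩ := hI _ _ hu'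
      refine pDvd_prod p ?_ ?_
      · show PDvd p (mk m s)
        rw [pDvd_mk_iff]
        refine ⟨⟨r, hr⟩ * u * t, ?_⟩
        simpa [Submonoid.coe_mul, smul_smul, mul_assoc] using h1
      · show PDvd p (mk n t)
        rw [pDvd_mk_iff]
        refine ⟨⟨r, hr⟩ * u * s, ?_⟩
        simpa [Submonoid.coe_mul, smul_smul, mul_assoc] using h2
  have hII' : Function.Surjective b := by
    rintro ⟨x, y⟩
    induction x using LocalizedModule.induction_on with
    | _ m s =>
    induction y using LocalizedModule.induction_on with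
    | _ n t =>
      obtain ⟨r, hr, z, hz1, hz2⟩ := hII ((t : 𝕋) • m) ((s : 𝕋) • n)
      refine ⟨mk z (⟨r, hr⟩ * s * t), ?_⟩
      simp only [b, LinearMap.prod_apply, Function.prod, loc_mk, hz1, hz2]
      refine Prod.ext ?_ ?_
      · show mk (r • (t : 𝕋) • m) (⟨r, hr⟩ * s * t) = mk m s
        apply mk_eq_of_smul_eq
        simp only [Submonoid.coe_mul, smul_smul]
        congr 1; ring
      · show mk (r • (s : 𝕋) • n) (⟨r, hr⟩ * s * t) = mk n t
        apply mk_eq_of_smul_eq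
        simp only [Submonoid.coe_mul, smul_smul]
        congr 1; ring
  have hIII' : ¬ ∀ x : LocalizedModule S L, ∃ y : LocalizedModule S L,
      PDvd p (x - (loc S T (loc S T y) - (c * c) • y)) := by
    intro hall
    apply hIII
    intro x
    obtain ⟨y, hy⟩ := hall (mk x 1)
    induction y using LocalizedModule.induction_on with
    | _ y t =>
      simp only [loc_mk, smul'_mk] at hy
      rw [mk_sub_mk, mk_sub_mk, pDvd_mk_iff] at hy
      obtain ⟨u, hu⟩ := hy
      refine ⟨(u : 𝕋) * ((t : 𝕋) * (t : 𝕋)), ?_, (u : 𝕋) • (t : 𝕋) • y, ?_⟩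
      · exact (u * (t * t)).2
      · have : (u : 𝕋) • (((t * t : S) : 𝕋) • x -
            ((1 : S) : 𝕋) • ((t : 𝕋) • T (T y) - (t : 𝕋) • (c * c) • y))
            = ((u : 𝕋) * ((t : 𝕋) * (t : 𝕋))) • x
              - (T (T ((u : 𝕋) • (t : 𝕋) • y)) - (c * c) • ((u : 𝕋) • (t : 𝕋) • y)) := by
          simp only [Submonoid.coe_mul, Submonoid.coe_one, map_smul]
          module
        rw [← this]; exact hu
  obtain ⟨z', hz'0, hz'⟩ := exists_ne_zero_mem_ker p c (loc S T) a b hba hart hI' hII' hIII'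
  induction z' using LocalizedModule.induction_on with
  | _ z s =>
    simp only [b, LinearMap.prod_apply, Function.prod, loc_mk, Prod.mk_eq_zero] at hz'
    obtain ⟨h1, h2⟩ := hz'
    rw [mk_eq_zero_iff] at h1 h2
    obtain ⟨u1, hu1⟩ := h1
    obtain ⟨u2, hu2⟩ := h2
    refine ⟨((u1 : 𝕋) * (u2 : 𝕋)) • z, ?_, ?_, ?_⟩
    · rw [map_smul, mul_comm, mul_smul, hu1, smul_zero]
    · rw [map_smul, mul_smul, hu2, smul_zero]
    · intro t ht h0
      apply hz'0
      rw [mk_eq_zero_iff]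
      refine ⟨⟨t, ht⟩ * u1 * u2, ?_⟩
      simpa [Submonoid.coe_mul, smul_smul, mul_assoc] using h0

end Main

end Fermat.Agent.S41.RibetAlgGlobal85
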