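import Mathlib

/-!
# [RIBET-ALG] : the abstract algebra step of Ribet's level raising argument (helper85)

`A` a commutative ring (think: a localised Hecke algebra), `X`, `X'` two `A`-modules
(think `L_𝔪`, `L'_𝔪`), `a : X × X → X'` (the two degeneracy maps), `b : X' → X × X`
(the two traces), `b ∘ a = D = [[c, T],[T, c]]` with `c = q + 1`, `T = T_q`.

* (I)   Ihara: `a` is injective modulo `p`;
* (II)  (Poincaré duality + Ihara): `b` is surjective;
* (III) `T² - c²` is NOT surjective modulo `p` on `X` (from the level raising congruence);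
* `X' / p X'` is Artinian (finite length).

Conclusion: `ker b ≠ 0`.
-/

set_option autoImplicit false

namespace Fermat.Agent.S41.RibetAlg85

open Submodule
open scoped Pointwise

variable {A : Type*} [CommRing A]
variable {X X' : Type*} [AddCommGroup X] [Module A X] [AddCommGroup X'] [Module A X']

/-- divisibility by `p` in a module, elementwise form -/
def PDvd (p : A) {M : Type*} [AddCommGroup M] [Module A M] (m : M) : Prop := ∃ w : M, m = p • w

lemma pDvd_iff_mem (p : A) {M : Type*} [AddCommGroup M] [Module A M] (m : M) :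
    PDvd p m ↔ m ∈ (p • (⊤ : Submodule A M)) := by
  rw [Submodule.mem_smul_pointwise_iff_exists]
  constructor
  · rintro ⟨w, rfl⟩; exact ⟨w, trivial, rfl⟩
  · rintro ⟨w, -, rfl⟩; exact ⟨w, rfl⟩

lemma PDvd.map (p : A) {M N : Type*} [AddCommGroup M] [Module A M] [AddCommGroup N] [Module A N]
    (f : M →ₗ[A] N) {m : M} (h : PDvd p m) : PDvd p (f m) := by
  obtain ⟨w, rfl⟩ := h
  exact ⟨f w, by rw [map_smul]⟩

lemma PDvd.add (p : A) {M : Type*} [AddCommGroup M] [Module A M] {m n : M}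
    (h : PDvd p m) (h' : PDvd p n) : PDvd p (m + n) := by
  obtain ⟨w, rfl⟩ := h; obtain ⟨w', rfl⟩ := h'
  exact ⟨w + w', by rw [smul_add]⟩

lemma PDvd.sub (p : A) {M : Type*} [AddCommGroup M] [Module A M] {m n : M}
    (h : PDvd p m) (h' : PDvd p n) : PDvd p (m - n) := by
  obtain ⟨w, rfl⟩ := h; obtain ⟨w', rfl⟩ := h'
  exact ⟨w - w', by rw [smul_sub]⟩

lemma PDvd.neg (p : A) {M : Type*} [AddCommGroup M] [Module A M] {m : M}
    (h : PDvd p m) : PDvd p (-m) := by
  obtain ⟨w, rfl⟩ := h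
  exact ⟨-w, by rw [smul_neg]⟩

lemma PDvd.smul (p : A) {M : Type*} [AddCommGroup M] [Module A M] {m : M} (r : A)
    (h : PDvd p m) : PDvd p (r • m) := by
  obtain ⟨w, rfl⟩ := h
  exact ⟨r • w, by rw [smul_comm]⟩

lemma PDvd.fst (p : A) {M N : Type*} [AddCommGroup M] [Module A M] [AddCommGroup N] [Module A N]
    {v : M × N} (h : PDvd p v) : PDvd p v.1 := by
  obtain ⟨w, rfl⟩ := h; exact ⟨w.1, rfl⟩

lemma PDvd.snd (p : A) {M N : Type*} [AddCommGroup M] [Module A M] [AddCommGroup N] [Module A N]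
    {v : M × N} (h : PDvd p v) : PDvd p v.2 := by
  obtain ⟨w, rfl⟩ := h; exact ⟨w.2, rfl⟩

lemma pDvd_prod (p : A) {M N : Type*} [AddCommGroup M] [Module A M] [AddCommGroup N] [Module A N]
    {v : M × N} (h1 : PDvd p v.1) (h2 : PDvd p v.2) : PDvd p v := by
  obtain ⟨w1, h1⟩ := h1; obtain ⟨w2, h2⟩ := h2
  exact ⟨(w1, w2), Prod.ext (by simpa using h1) (by simpa using h2)⟩

/-- **[RIBET-ALG]**, elementwise form. -/
theorem exists_ne_zero_mem_ker
    (p c : A) (T : X →ₗ[A] X) (a : X × X →ₗ[A] X') (b : X' →ₗ[A] X × X)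
    (hba : ∀ x y : X, b (a (x, y)) = (c • x + T y, T x + c • y))
    (hart : IsArtinian A (X' ⧸ (p • (⊤ : Submodule A X'))))
    (hI : ∀ v : X × X, PDvd p (a v) → PDvd p v)
    (hII : Function.Surjective b)
    (hIII : ¬ ∀ x : X, ∃ y : X, PDvd p (x - (T (T y) - (c * c) • y))) :
    ∃ z : X', z ≠ 0 ∧ b z = 0 := by
  by_contra hcon
  push Not at hcon
  have hbinj : Function.Injective b := by
    rw [← LinearMap.ker_eq_bot, LinearMap.ker_eq_bot']
    intro z hz
    by_contra hz0
    exact hcon z hz0 hz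
  apply hIII
  -- the endomorphism `a ∘ b` of `X'` and its reduction mod `p`
  set P' : Submodule A X' := p • (⊤ : Submodule A X') with hP'
  let φ : X' →ₗ[A] X' := a ∘ₗ b
  have hφP : P' ≤ P'.comap φ := by
    intro z hz
    rw [Submodule.mem_comap, hP', ← pDvd_iff_mem]
    rw [hP', ← pDvd_iff_mem] at hz
    exact hz.map p φ
  let φbar : (X' ⧸ P') →ₗ[A] (X' ⧸ P') := P'.mapQ P' φ hφP
  have hφinj : Function.Injective φbar := by
    rw [← LinearMap.ker_eq_bot, LinearMap.ker_eq_bot']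
    intro zbar hz
    obtain ⟨z, rfl⟩ := Submodule.Quotient.mk_surjective P' zbar
    rw [Submodule.mapQ_apply, Submodule.Quotient.mk_eq_zero, hP', ← pDvd_iff_mem] at hz
    rw [Submodule.Quotient.mk_eq_zero, hP', ← pDvd_iff_mem]
    -- `a (b z)` divisible by p ⇒ `b z` divisible by `p` ⇒ `z` divisible by `p`
    have h1 : PDvd p (b z) := hI (b z) hz
    obtain ⟨w, hw⟩ := h1
    obtain ⟨z', rfl⟩ := hII w
    refine ⟨z', hbinj ?_⟩
    rw [hw, map_smul]
  have hφsurj : Function.Surjective φbar :=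
    IsArtinian.surjective_of_injective_endomorphism φbar hφinj
  -- `a` is surjective modulo `p`
  have ha_surj : ∀ z' : X', ∃ v : X × X, PDvd p (z' - a v) := by
    intro z'
    obtain ⟨zbar, hz⟩ := hφsurj (Submodule.Quotient.mk z')
    obtain ⟨z, rfl⟩ := Submodule.Quotient.mk_surjective P' zbar
    rw [Submodule.mapQ_apply, eq_comm, ← sub_eq_zero, ← Submodule.Quotient.mk_sub,
      Submodule.Quotient.mk_eq_zero, hP', ← pDvd_iff_mem] at hz
    exact ⟨b z, hz⟩
  -- `D = b ∘ a` is surjective modulo `p`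
  have hD_surj : ∀ w : X × X, ∃ v : X × X,
      PDvd p (w - (c • v.1 + T v.2, T v.1 + c • v.2)) := by
    intro w
    obtain ⟨z', rfl⟩ := hII w
    obtain ⟨v, hv⟩ := ha_surj z'
    refine ⟨v, ?_⟩
    have := hv.map p b
    rw [map_sub] at this
    rw [← hba v.1 v.2]
    exact this
  intro x
  -- solve `D v ≡ (x, 0)`, then `D u' ≡ J v`, `u = J u'`
  obtain ⟨v, hv⟩ := hD_surj (x, 0)
  obtain ⟨u, hu⟩ := hD_surj (v.1, -v.2)
  have hv1 := hv.fst p
  have hu1 := hu.fst p
  have hu2 := hu.snd p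
  -- hv1 : p ∣ x - (c v1 + T v2);  hu1 : p ∣ v1 - (c u1 + T u2);  hu2 : p ∣ -v2 - (T u1 + c u2)
  refine ⟨-u.1, ?_⟩
  -- x - (T T (-u1) - c c (-u1)) = x - (c^2 - T^2) u1
  have key : x - (T (T (-u.1)) - (c * c) • (-u.1))
      = (x - (c • v.1 + T v.2)) + c • (v.1 - (c • u.1 + T u.2))
        - T (-v.2 - (T u.1 + c • u.2)) := by
    simp only [map_neg, map_sub, map_add, map_smul, smul_sub, smul_add, smul_neg, mul_smul]
    abel
  rw [key]
  exact ((hv1.add p (hu1.smul p c)).sub p (hu2.map p T))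

end Fermat.Agent.S41.RibetAlg85
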